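import Fermat.Agent.S24.H117.RatFun
import Fermat.Agent.S24.H504.PlaceOrd

/-!
# Orders of polynomials in `j` at places over finite points and over infinity
-/

set_option autoImplicit false

namespace Fermat.Agent.S24.H504

open AlgebraicCurve Polynomial

variable {K F : Type*} [Field K] [Field F] [Algebra K F]

/-- Order of `r(j)` at a place over `j = a`. -/
theorem ord_aeval_of_finite (v : Place K F) {j : F} {a : K}
    (hv : 0 < v.ord (j - algebraMap K F a)) (r : K[X]) (hr : r ≠ 0) :
    aeval j r ≠ 0 ∧
      v.ord (aeval j r) = (r.rootMultiplicity a : ℤ) * v.ord (j - algebraMap K F a) := by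
  have hcomp : r.comp (X + C a) ≠ 0 := by
    intro h
    apply hr
    have := congrArg (fun p => p.comp (X - C a)) h
    simpa [comp_assoc] using this
  have h := H117.ord_aeval_eq v hv (r.comp (X + C a)) hcomp
  have hval : aeval (j - algebraMap K F a) (r.comp (X + C a)) = aeval j r := by
    rw [aeval_comp]
    simp
  rw [hval, ← rootMultiplicity_eq_rootMultiplicity] at h
  exact h

/-- Order of `r(j)` at a place over `j = ∞`. -/
theorem ord_aeval_of_infinite (v : Place K F) {j : F} (hv : 0 < v.ord j⁻¹) (r : K[X])
    (hr : r ≠ 0) :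
    aeval j r ≠ 0 ∧ v.ord (aeval j r) = -((r.natDegree : ℤ) * v.ord j⁻¹) := by
  have hj0 : j ≠ 0 := by
    rintro rfl
    simp at hv
  have hrev : r.reverse ≠ 0 := by rwa [ne_eq, reverse_eq_zero]
  have hrev0 : r.reverse.rootMultiplicity 0 = 0 := by
    apply rootMultiplicity_eq_zero
    rw [IsRoot, ← coeff_zero_eq_eval_zero, coeff_zero_reverse]
    exact leadingCoeff_ne_zero.mpr hr
  obtain ⟨h1, h2⟩ := H117.ord_aeval_eq v hv r.reverse hrev
  rw [hrev0] at h2
  have hmul : aeval j⁻¹ r.reverse * j ^ r.natDegree = aeval j r := by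
    haveI : Invertible j := invertibleOfNonzero hj0
    have := eval₂_reverse_mul_pow (algebraMap K F) j r
    simpa [aeval_def] using this
  refine ⟨?_, ?_⟩
  · rw [← hmul]
    exact mul_ne_zero h1 (pow_ne_zero _ hj0)
  · rw [← hmul, v.ord_mul h1 (pow_ne_zero _ hj0), h2, ord_pow]
    have : v.ord j = -v.ord j⁻¹ := by rw [Place.ord_inv]; ring
    rw [this]
    push_cast
    ring

/-- Over an algebraically closed field the root multiplicities add up to the degree. -/
theorem sum_rootMultiplicity_eq_natDegree [IsAlgClosed K] (r : K[X]) (A : Finset K)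
    (hA : ∀ a, r.IsRoot a → a ∈ A) (hr : r ≠ 0) :
    ∑ a ∈ A, r.rootMultiplicity a = r.natDegree := by
  classical
  have h1 : ∑ a ∈ r.roots.toFinset, r.roots.count a = Multiset.card r.roots :=
    Multiset.toFinset_sum_count_eq r.roots
  have h2 : Multiset.card r.roots = r.natDegree :=
    splits_iff_card_roots.mp (IsAlgClosed.splits r)
  have hsub : r.roots.toFinset ⊆ A := by
    intro a ha
    rw [Multiset.mem_toFinset, mem_roots hr] at ha
    exact hA a ha
  rw [← h2, ← h1, ← Finset.sum_subset hsub]
  · exact Finset.sum_congr rfl (fun a _ => (count_roots r).symm)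
  · intro a _ ha
    rw [Multiset.mem_toFinset, mem_roots hr] at ha
    exact rootMultiplicity_eq_zero ha

end Fermat.Agent.S24.H504
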