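import Fermat.Agent.S24.H504.FF3Norm
import Fermat.Agent.S24.H504.FF3Rat
import Fermat.Agent.S24.Alg.Basic
import Fermat.Agent.S24.FFPoint

/-!
# FF3: a principal divisor has degree zero (from local embedding data, Dedekind-free)
-/

set_option autoImplicit false
set_option linter.style.haveILetI false
set_option linter.unusedSectionVars false

namespace Fermat.Agent.S24.H504

open AlgebraicCurve IntermediateField Polynomial

variable {K F : Type*} [Field K] [Field F] [Algebra K F]
variable {C : Type*} [Field C] {X : Type*}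

theorem ls_order_prod {ι : Type*} (s : Finset ι) (A : ι → LaurentSeries C)
    (h : ∀ i ∈ s, A i ≠ 0) : (∏ i ∈ s, A i).order = ∑ i ∈ s, (A i).order := by
  classical
  induction s using Finset.induction_on with
  | empty => simp
  | insert a s ha ih =>
    rw [Finset.prod_insert ha, Finset.sum_insert ha,
      HahnSeries.order_mul (h a (Finset.mem_insert_self a s))
        (Finset.prod_ne_zero_iff.mpr fun i hi => h i (Finset.mem_insert_of_mem hi)),
      ih fun i hi => h i (Finset.mem_insert_of_mem hi)]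

section

variable [IsAlgClosed K] [CharZero K] [CharZero C] [Finite X]

/-- **Local norm theorem.**  If the norm `N f ∈ E ⊆ K(t)` has order `k · v(t)` at every place
`v` over `t = 0`, then `∑_{v | t} v(f) = k`. -/
theorem sum_ord_eq_of_norm {t : F} (L : LocalData K F C X t)
    (E : IntermediateField K F) (hE : E ≤ K⟮t⟯) [FiniteDimensional E F]
    (hrank : Module.finrank E F = Nat.card X)
    (s : Finset (Place K F)) (hs : ∀ v, v ∈ s ↔ 0 < v.ord t) (f : F) (hf : f ≠ 0) (k : ℤ)
    (hk : ∀ v : Place K F, 0 < v.ord t →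
      v.ord (algebraMap E F (Algebra.norm E f)) = k * v.ord t) :
    ∑ v ∈ s, v.ord f = k := by
  classical
  haveI := Fintype.ofFinite X
  have hn : 0 < Nat.card X := hrank ▸ Module.finrank_pos
  obtain ⟨x₀⟩ := (Nat.card_pos_iff.mp hn).1
  set g : F := algebraMap E F (Algebra.norm E f) with hg
  have hgE : g ∈ K⟮t⟯ := hE (Algebra.norm E f).2
  have h1 := sum_order_eq L E hE hrank s hs f
  have h2 := sum_order_eq L E hE hrank s hs g
  have h3 : ∑ v ∈ s, v.ord g = k * Nat.card X := by
    rw [← sum_ord_eq_card L E hE hrank s hs, Finset.mul_sum]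
    exact Finset.sum_congr rfl fun v hv => hk v ((hs v).mp hv)
  have h4 : ∀ x, L.σ x g = L.σ x₀ g := fun x => H117.σ_eq_of_mem_adjoin L x x₀ hgE
  have h5 : (L.σ x₀ g).order = ∑ x, (L.σ x f).order := by
    rw [hg, σ_norm_eq_prod L E hE hrank x₀ f, ls_order_prod]
    intro x _
    exact (map_ne_zero (L.σ x)).mpr hf
  have h6 : ∑ x, (L.σ x g).order = Nat.card X * (L.σ x₀ g).order := by
    rw [Finset.sum_congr rfl (fun x _ => by rw [h4 x]), Finset.sum_const, Finset.card_univ,
      nsmul_eq_mul, Nat.card_eq_fintype_card]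
  have hm : (0 : ℤ) < L.m := by exact_mod_cast L.m_pos
  have hn' : (0 : ℤ) < Nat.card X := by exact_mod_cast hn
  have key : (L.m : ℤ) * Nat.card X * ∑ v ∈ s, v.ord f = (L.m : ℤ) * Nat.card X * k := by
    have e1 : (Nat.card X : ℤ) * (L.m * ∑ v ∈ s, v.ord f) = L.m * (k * Nat.card X) := by
      rw [← h1, ← h5, ← h6, h2, h3]
    linear_combination e1
  exact mul_left_cancel₀ (mul_pos hm hn').ne' key

/-- **FF3 from local data.**  A principal divisor has degree zero. -/
theorem degree_principal_of_localData (j : F) [FiniteDimensional K⟮j⟯ F]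
    (hrank : Module.finrank K⟮j⟯ F = Nat.card X)
    (dataFin : ∀ a : K, LocalData K F C X (j - algebraMap K F a))
    (dataInf : LocalData K F C X j⁻¹)
    (f : F) (hf : f ≠ 0) (D : Divisor K F) (hD : ∀ v : Place K F, D v = v.ord f) :
    Divisor.degree D = 0 := by
  classical
  have hEa : ∀ a : K, K⟮j⟯ ≤ K⟮j - algebraMap K F a⟯ := fun a =>
    (adjoin_sub_algebraMap K j a).ge
  have hEinf : K⟮j⟯ ≤ K⟮j⁻¹⟯ := (adjoin_inv K j).ge
  -- the norm as a rational function of `j`
  set g : F := algebraMap K⟮j⟯ F (Algebra.norm K⟮j⟯ f) with hg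
  have hg0 : g ≠ 0 := by
    rw [hg]
    have : Algebra.norm K⟮j⟯ f ≠ 0 := Algebra.norm_ne_zero_iff.mpr hf
    simpa using this
  obtain ⟨r, s, hrs⟩ := (mem_adjoin_simple_iff K g).mp (Algebra.norm K⟮j⟯ f).2
  have hr : r ≠ 0 := by
    rintro rfl
    simp at hrs
    exact hg0 hrs
  have hs : s ≠ 0 := by
    rintro rfl
    simp at hrs
    exact hg0 hrs
  -- places over the points
  have hfinA : ∀ a : K, {v : Place K F | 0 < v.ord (j - algebraMap K F a)}.Finite := fun a =>
    H117.finite_places_over (dataFin a) K⟮j⟯ (hEa a) hrank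
  have hfinI : {v : Place K F | 0 < v.ord j⁻¹}.Finite :=
    H117.finite_places_over dataInf K⟮j⟯ hEinf hrank
  set Sa : K → Finset (Place K F) := fun a => (hfinA a).toFinset with hSa
  set Sinf : Finset (Place K F) := hfinI.toFinset with hSinf
  have hSa_mem : ∀ a v, v ∈ Sa a ↔ 0 < v.ord (j - algebraMap K F a) := fun a v => by
    simp [hSa]
  have hSinf_mem : ∀ v, v ∈ Sinf ↔ 0 < v.ord j⁻¹ := fun v => by simp [hSinf]
  -- local sums
  have hlocA : ∀ a : K, ∑ v ∈ Sa a, v.ord f
      = (r.rootMultiplicity a : ℤ) - s.rootMultiplicity a := by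
    intro a
    refine sum_ord_eq_of_norm (dataFin a) K⟮j⟯ (hEa a) hrank (Sa a) (hSa_mem a) f hf _ ?_
    intro v hv
    obtain ⟨hr1, hr2⟩ := ord_aeval_of_finite v hv r hr
    obtain ⟨hs1, hs2⟩ := ord_aeval_of_finite v hv s hs
    rw [← hg, hrs, ord_div v hr1 hs1, hr2, hs2]
    ring
  have hlocI : ∑ v ∈ Sinf, v.ord f = (s.natDegree : ℤ) - r.natDegree := by
    refine sum_ord_eq_of_norm dataInf K⟮j⟯ hEinf hrank Sinf hSinf_mem f hf _ ?_
    intro v hv
    obtain ⟨hr1, hr2⟩ := ord_aeval_of_infinite v hv r hr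
    obtain ⟨hs1, hs2⟩ := ord_aeval_of_infinite v hv s hs
    rw [← hg, hrs, ord_div v hr1 hs1, hr2, hs2]
    ring
  -- every place lies over a point
  have hpt : ∀ v : Place K F, 0 < v.ord j⁻¹ ∨ ∃ a : K, 0 < v.ord (j - algebraMap K F a) := by
    intro v
    rcases lt_or_ge (v.ord j) 0 with h | h
    · left
      rw [Place.ord_inv]
      omega
    · right
      exact FF.exists_ord_sub_pos v j h
  -- all places have degree one
  have hdeg : ∀ v : Place K F, v.deg = 1 := by
    intro v
    rcases hpt v with h | ⟨a, h⟩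
    · haveI := isAlgebraic_adjoin_of_le (t := j⁻¹) K⟮j⟯ hEinf
      exact deg_eq_one h
    · haveI := isAlgebraic_adjoin_of_le (t := j - algebraMap K F a) K⟮j⟯ (hEa a)
      exact deg_eq_one h
  -- the degree as a sum over the support
  have hdegD : Divisor.degree D = ∑ v ∈ D.support, v.ord f := by
    show (Finsupp.liftAddHom fun v : Place K F => AddMonoidHom.mulRight ((v.deg : ℤ))) D = _
    rw [Finsupp.liftAddHom_apply, Finsupp.sum]
    apply Finset.sum_congr rfl
    intro v _
    simp [hdeg v, hD v]
  -- the finite set of finite points involved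
  set pt : Place K F → K := fun v =>
    if h : ∃ a : K, 0 < v.ord (j - algebraMap K F a) then h.choose else 0 with hptdef
  set A : Finset K := D.support.image pt ∪ (r.roots.toFinset ∪ s.roots.toFinset) with hA
  have hsub : D.support ⊆ A.biUnion Sa ∪ Sinf := by
    intro v hv
    rcases hpt v with h | h
    · exact Finset.mem_union_right _ ((hSinf_mem v).mpr h)
    · apply Finset.mem_union_left
      rw [Finset.mem_biUnion]
      refine ⟨pt v, ?_, ?_⟩
      · exact Finset.mem_union_left _ (Finset.mem_image_of_mem _ hv)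
      · rw [hSa_mem]
        simp only [hptdef, dif_pos h]
        exact h.choose_spec
  have hdisj1 : Disjoint (A.biUnion Sa) Sinf := by
    rw [Finset.disjoint_left]
    intro v hv hv'
    rw [Finset.mem_biUnion] at hv
    obtain ⟨a, -, ha⟩ := hv
    exact not_pos_ord_sub_of_pos_ord_inv v j a ((hSinf_mem v).mp hv') ((hSa_mem a v).mp ha)
  have hdisj2 : (A : Set K).PairwiseDisjoint Sa := by
    intro a _ b _ hab
    rw [Function.onFun, Finset.disjoint_left]
    intro v hva hvb
    exact hab (point_unique v j ((hSa_mem a v).mp hva) ((hSa_mem b v).mp hvb))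
  rw [hdegD, Finset.sum_subset hsub (fun v _ hv => by
    rw [← hD v]
    exact Finsupp.notMem_support_iff.mp hv),
    Finset.sum_union hdisj1, Finset.sum_biUnion hdisj2, hlocI,
    Finset.sum_congr rfl (fun a _ => hlocA a), Finset.sum_sub_distrib]
  have hr' := sum_rootMultiplicity_eq_natDegree r A (fun a ha => by
    rw [hA]
    apply Finset.mem_union_right
    apply Finset.mem_union_left
    rw [Multiset.mem_toFinset, mem_roots hr]
    exact ha) hr
  have hs' := sum_rootMultiplicity_eq_natDegree s A (fun a ha => by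
    rw [hA]
    apply Finset.mem_union_right
    apply Finset.mem_union_right
    rw [Multiset.mem_toFinset, mem_roots hs]
    exact ha) hs
  have hr'' : ∑ a ∈ A, (r.rootMultiplicity a : ℤ) = r.natDegree := by exact_mod_cast hr'
  have hs'' : ∑ a ∈ A, (s.rootMultiplicity a : ℤ) = s.natDegree := by exact_mod_cast hs'
  rw [hr'', hs'']
  ring

end

end Fermat.Agent.S24.H504
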