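import Fermat.Agent.S24.H504.FF3Local

/-!
# The norm is the product of the embeddings
-/

set_option autoImplicit false
set_option linter.style.haveILetI false
set_option linter.unusedSectionVars false

namespace Fermat.Agent.S24.H504

open AlgebraicCurve IntermediateField

variable {K F : Type*} [Field K] [Field F] [Algebra K F] [CharZero K]
variable {C : Type*} [Field C] {X : Type*} {t : F}

/-- **Norm formula.**  The embeddings of a `LocalData` of full cardinality are all the
`E`-embeddings, hence the image of the norm is the product of the conjugates. -/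
theorem σ_norm_eq_prod [Fintype X] (L : LocalData K F C X t)
    (E : IntermediateField K F) (hE : E ≤ K⟮t⟯) [FiniteDimensional E F]
    (hrank : Module.finrank E F = Nat.card X) (x₀ : X) (f : F) :
    L.σ x₀ (algebraMap E F (Algebra.norm E f)) = ∏ x, L.σ x f := by
  classical
  haveI : CharZero E := charZero_of_injective_algebraMap (algebraMap K E).injective
  let σ₀ : E →+* LaurentSeries C := (L.σ x₀).comp (algebraMap E F)
  letI algELS : Algebra E (LaurentSeries C) := σ₀.toAlgebra
  let τ : X → (F →ₐ[E] AlgebraicClosure (LaurentSeries C)) := fun x =>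
    { toRingHom := (algebraMap (LaurentSeries C) (AlgebraicClosure (LaurentSeries C))).comp (L.σ x)
      commutes' := fun e => by
        show algebraMap (LaurentSeries C) (AlgebraicClosure (LaurentSeries C)) (L.σ x (e : F))
          = algebraMap (LaurentSeries C) (AlgebraicClosure (LaurentSeries C)) (L.σ x₀ (e : F))
        rw [H117.σ_eq_of_mem_adjoin L x x₀ (hE e.2)] }
  have hτapply : ∀ x g, τ x g
      = algebraMap (LaurentSeries C) (AlgebraicClosure (LaurentSeries C)) (L.σ x g) :=
    fun _ _ => rfl
  have hτinj : Function.Injective τ := by
    intro x y hxy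
    apply L.σ_inj
    ext g : 1
    have := DFunLike.congr_fun hxy g
    rw [hτapply, hτapply] at this
    exact (algebraMap (LaurentSeries C) (AlgebraicClosure (LaurentSeries C))).injective this
  have hcard : Nat.card (F →ₐ[E] AlgebraicClosure (LaurentSeries C)) = Nat.card X := by
    rw [← hrank, ← Fintype.card_eq_nat_card]
    exact AlgHom.card E F (AlgebraicClosure (LaurentSeries C))
  have hτbij : Function.Bijective τ :=
    (Nat.bijective_iff_injective_and_card τ).mpr ⟨hτinj, hcard.symm⟩
  have hnorm := Algebra.norm_eq_prod_embeddings E (AlgebraicClosure (LaurentSeries C)) f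
  have hprod : ∏ ψ : F →ₐ[E] AlgebraicClosure (LaurentSeries C), ψ f = ∏ x, τ x f :=
    (Function.Bijective.prod_comp hτbij (fun ψ => ψ f)).symm
  rw [hprod] at hnorm
  simp only [hτapply] at hnorm
  rw [← map_prod] at hnorm
  have hL : algebraMap E (AlgebraicClosure (LaurentSeries C)) (Algebra.norm E f)
      = algebraMap (LaurentSeries C) (AlgebraicClosure (LaurentSeries C))
        (L.σ x₀ (algebraMap E F (Algebra.norm E f))) := rfl
  rw [hL] at hnorm
  exact (algebraMap (LaurentSeries C) (AlgebraicClosure (LaurentSeries C))).injective hnorm

end Fermat.Agent.S24.H504
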